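import Mathlib
import Fermat.Prelude.Def_ModularForm_HeckeOperator
import Fermat.Prelude.Thm_CongruenceSubgroup_one_mem_strictPeriods_Gamma0

set_option autoImplicit false

open UpperHalfPlane ModularForm CongruenceSubgroup Matrix.SpecialLinearGroup Filter
open scoped MatrixGroups ModularForm Manifold Topology

namespace Fermat.Agent.S23.H743

noncomputable section

/-- A level one modular form tends to the constant coefficient of its `q`-expansion at `i∞`. -/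
lemma tendsto_atImInfty_coeff_zero {k : ℤ} (f : ModularForm 𝒮ℒ k) :
    Tendsto (f : ℍ → ℂ) atImInfty (𝓝 ((qExpansion 1 f).coeff 0)) := by
  have hper := SlashInvariantFormClass.periodic_comp_ofComplex f one_mem_strictPeriods_SL
  have han := ModularFormClass.analyticAt_cuspFunction_zero f one_pos one_mem_strictPeriods_SL
  rw [qExpansion_coeff_zero one_pos han hper, ← cuspFunction_apply_zero one_pos han hper]
  have : (cuspFunction 1 f ∘ fun τ ↦ Function.Periodic.qParam 1 τ : ℍ → ℂ) = f := by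
    funext τ
    simpa using eq_cuspFunction τ one_ne_zero hper
  have h2 := han.continuousAt.tendsto.comp (qParam_tendsto_atImInfty one_pos)
  rw [this] at h2
  exact h2

lemma tendsto_E₄_atImInfty : Tendsto (E₄ : ℍ → ℂ) atImInfty (𝓝 1) := by
  have := tendsto_atImInfty_coeff_zero E₄
  rwa [EisensteinSeries.E_qExpansion_coeff_zero (by norm_num) ⟨2, rfl⟩] at this

/-- Slash by an upper triangular matrix with positive diagonal entries. -/
lemma slash_upperTriangularGL_apply (k : ℤ) {a b d : ℝ} (ha : 0 < a) (hd : 0 < d)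
    (f : ℍ → ℂ) (τ : ℍ) :
    (f ∣[k] upperTriangularGL a b d (mul_pos ha hd).ne') τ =
      f (upperTriangularGL a b d (mul_pos ha hd).ne' • τ) * ((a * d : ℝ) : ℂ) ^ (k - 1)
        * ((d : ℝ) : ℂ) ^ (-k) := by
  have hdet : ((upperTriangularGL a b d (mul_pos ha hd).ne').det : ℝ) = a * d := by
    rw [Matrix.GeneralLinearGroup.val_det_apply, val_upperTriangularGL, Matrix.det_fin_two_of]
    ring
  have hσ : UpperHalfPlane.σ (upperTriangularGL a b d (mul_pos ha hd).ne') = .refl ℝ ℂ := by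
    rw [UpperHalfPlane.σ, if_pos (by rw [hdet]; exact mul_pos ha hd)]
  rw [ModularForm.slash_apply, hσ, hdet]
  simp [UpperHalfPlane.denom, abs_of_pos (mul_pos ha hd)]

lemma tendsto_slash_upperTriangularGL (k : ℤ) {a b d : ℝ} (ha : 0 < a) (hd : 0 < d)
    {f : ℍ → ℂ} {L : ℂ} (hf : Tendsto f atImInfty (𝓝 L)) :
    Tendsto (f ∣[k] upperTriangularGL a b d (mul_pos ha hd).ne') atImInfty
      (𝓝 (L * ((a * d : ℝ) : ℂ) ^ (k - 1) * ((d : ℝ) : ℂ) ^ (-k))) := by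
  have h1 : Tendsto (fun τ : ℍ ↦ upperTriangularGL a b d (mul_pos ha hd).ne' • τ)
      atImInfty atImInfty :=
    tendsto_smul_atImInfty (by simp [upperTriangularGL])
  have h2 := hf.comp h1
  have h3 : (f ∣[k] upperTriangularGL a b d (mul_pos ha hd).ne') =
      fun τ ↦ f (upperTriangularGL a b d (mul_pos ha hd).ne' • τ) * ((a * d : ℝ) : ℂ) ^ (k - 1)
        * ((d : ℝ) : ℂ) ^ (-k) := by
    funext τ
    exact slash_upperTriangularGL_apply k ha hd f τ
  rw [h3]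
  exact (h2.mul_const _).mul_const _

lemma matrix_identity (N : ℕ) (hN : N ≠ 0) (γ δ : SL(2, ℤ)) (g N' : ℕ) (b' : ℤ) (hg : 0 < (g : ℝ)) (hN' : 0 < (N' : ℝ))
    (h00 : δ 0 0 * N * γ 0 0 + δ 0 1 * γ 1 0 = g)
    (h01 : δ 0 0 * N * γ 0 1 + δ 0 1 * γ 1 1 = b')
    (h10 : δ 1 0 * N * γ 0 0 + δ 1 1 * γ 1 0 = 0)
    (h11 : δ 1 0 * N * γ 0 1 + δ 1 1 * γ 1 1 = N') :
    (mapGL ℝ δ) * heckeDiagMatrix N * (mapGL ℝ γ) =
        upperTriangularGL g b' N' (mul_pos hg hN').ne' := by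
  apply Units.ext
  ext i j
  fin_cases i <;> fin_cases j
  · simp [Matrix.mul_apply, Fin.sum_univ_two, val_heckeDiagMatrix hN]
    exact_mod_cast h00
  · simp [Matrix.mul_apply, Fin.sum_univ_two, val_heckeDiagMatrix hN]
    exact_mod_cast h01
  · simp [Matrix.mul_apply, Fin.sum_univ_two, val_heckeDiagMatrix hN]
    exact_mod_cast h10
  · simp [Matrix.mul_apply, Fin.sum_univ_two, val_heckeDiagMatrix hN]
    exact_mod_cast h11

lemma exists_decomp (N : ℕ) (hN : N ≠ 0) (γ : SL(2, ℤ)) :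
    ∃ (δ : SL(2, ℤ)) (g N' : ℕ) (b' : ℤ) (hg : 0 < (g : ℝ)) (hN' : 0 < (N' : ℝ)),
      g * N' = N ∧ g = Int.gcd N (γ 1 0) ∧
      (mapGL ℝ δ) * heckeDiagMatrix N * (mapGL ℝ γ) =
        upperTriangularGL g b' N' (mul_pos hg hN').ne' := by
  have hdet : γ 0 0 * γ 1 1 - γ 0 1 * γ 1 0 = 1 := by
    have := γ.det_coe
    rw [Matrix.det_fin_two] at this
    exact this
  set g : ℕ := Int.gcd N (γ 1 0) with hgdef
  have hgpos : 0 < g := Int.gcd_pos_of_ne_zero_left _ (by exact_mod_cast hN)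
  have hgN : g ∣ N := by
    have : (g : ℤ) ∣ (N : ℤ) := Int.gcd_dvd_left _ _
    exact_mod_cast this
  obtain ⟨N', hN'⟩ := hgN
  obtain ⟨c', hc'⟩ : (g : ℤ) ∣ γ 1 0 := Int.gcd_dvd_right _ _
  have hN'pos : 0 < N' := Nat.pos_of_ne_zero (by rintro rfl; simp at hN'; exact hN hN')
  have hcop1 : IsCoprime (N' : ℤ) c' := by
    rw [Int.isCoprime_iff_gcd_eq_one]
    have h := Int.gcd_div_gcd_div_gcd (i := (N : ℤ)) (j := γ 1 0) hgpos
    have e1 : (N : ℤ) / (Int.gcd N (γ 1 0) : ℤ) = N' := by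
      rw [← hgdef, hN']
      push_cast
      exact Int.mul_ediv_cancel_left _ (by exact_mod_cast hgpos.ne')
    have e2 : γ 1 0 / (Int.gcd N (γ 1 0) : ℤ) = c' := by
      rw [← hgdef, hc']
      exact Int.mul_ediv_cancel_left _ (by exact_mod_cast hgpos.ne')
    rwa [e1, e2] at h
  have hcop2 : IsCoprime (γ 0 0) c' := by
    refine ⟨γ 1 1, -(γ 0 1) * g, ?_⟩
    rw [hc'] at hdet
    linear_combination hdet
  have hcop3 : IsCoprime ((N' : ℤ) * γ 0 0) c' := hcop1.mul_left hcop2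
  obtain ⟨p, q, hpq⟩ := hcop3
  have hδdet : (!![p, q; -c', N' * γ 0 0] : Matrix (Fin 2) (Fin 2) ℤ).det = 1 := by
    rw [Matrix.det_fin_two_of]; linear_combination hpq
  have hg' : 0 < (g : ℝ) := by exact_mod_cast hgpos
  have hN'' : 0 < (N' : ℝ) := by exact_mod_cast hN'pos
  have hNZ : (N : ℤ) = g * N' := by exact_mod_cast hN'
  refine ⟨⟨!![p, q; -c', N' * γ 0 0], hδdet⟩, g, N', p * N * γ 0 1 + q * γ 1 1, hg', hN'',
    hN'.symm, rfl, ?_⟩
  refine matrix_identity N hN _ _ g N' _ hg' hN'' ?_ ?_ ?_ ?_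
  · simp only [Matrix.of_apply, Matrix.cons_val', Matrix.cons_val_zero,
      Matrix.cons_val_one, Matrix.cons_val_fin_one]
    rw [hc', hNZ]
    linear_combination (g : ℤ) * hpq
  · simp
  · simp only [Matrix.of_apply, Matrix.cons_val', Matrix.cons_val_zero,
      Matrix.cons_val_one, Matrix.cons_val_fin_one]
    rw [hc', hNZ]
    ring
  · simp only [Matrix.of_apply, Matrix.cons_val', Matrix.cons_val_zero,
      Matrix.cons_val_one, Matrix.cons_val_fin_one]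
    rw [hNZ]
    rw [hc'] at hdet
    linear_combination (N' : ℤ) * hdet

/-- The function `t = E₄ ∣[4] diag(N,1)`, i.e. `τ ↦ N³ E₄(N τ)`. -/
def tFun (N : ℕ) : ℍ → ℂ := (E₄ : ℍ → ℂ) ∣[(4 : ℤ)] heckeDiagMatrix N

lemma heckeDiagMatrix_eq_upperTriangularGL (N : ℕ) (hN : 0 < (N : ℝ)) :
    heckeDiagMatrix N = upperTriangularGL N 0 1 (mul_pos hN one_pos).ne' := by
  have hN' : N ≠ 0 := by rintro rfl; simp at hN
  apply Units.ext
  ext i j
  fin_cases i <;> fin_cases j <;> simp [val_heckeDiagMatrix hN']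

lemma tendsto_tFun (N : ℕ) (hN : N ≠ 0) :
    Tendsto (tFun N) atImInfty (𝓝 ((N : ℂ) ^ 3)) := by
  have hN' : 0 < (N : ℝ) := by exact_mod_cast Nat.pos_of_ne_zero hN
  have := tendsto_slash_upperTriangularGL 4 (b := 0) hN' one_pos tendsto_E₄_atImInfty
  rw [← heckeDiagMatrix_eq_upperTriangularGL N hN'] at this
  have e : (1 : ℂ) * ((N * 1 : ℝ) : ℂ) ^ ((4 : ℤ) - 1) * ((1 : ℝ) : ℂ) ^ (-(4 : ℤ)) =
      (N : ℂ) ^ 3 := by
    rw [show ((4 : ℤ) - 1) = ((3 : ℕ) : ℤ) by norm_num, zpow_natCast]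
    simp
  rw [e] at this
  exact this

lemma E₄_slash_SL (δ : SL(2, ℤ)) : (E₄ : ℍ → ℂ) ∣[(4 : ℤ)] (mapGL ℝ δ) = E₄ :=
  SlashInvariantFormClass.slash_action_eq E₄ _ ⟨δ, rfl⟩

theorem tFun_slash_ne (N : ℕ) (hN : N ≠ 0) (γ : SL(2, ℤ)) (hγ : γ ∉ Gamma0 N) :
    tFun N ∣[(4 : ℤ)] (mapGL ℝ γ) ≠ tFun N := by
  intro h
  obtain ⟨δ, g, N', b', hg, hN', hgN, hgdef, hmat⟩ := exists_decomp N hN γ
  have h1 : tFun N ∣[(4 : ℤ)] (mapGL ℝ γ) =
      (E₄ : ℍ → ℂ) ∣[(4 : ℤ)] upperTriangularGL g b' N' (mul_pos hg hN').ne' := by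
    rw [← hmat, tFun, mul_assoc, SlashAction.slash_mul, E₄_slash_SL, SlashAction.slash_mul]
  have h2 := tendsto_slash_upperTriangularGL 4 (b := b') hg hN' tendsto_E₄_atImInfty
  rw [← h1, h] at h2
  have h3 := tendsto_nhds_unique h2 (tendsto_tFun N hN)
  have hN'0 : (N' : ℂ) ≠ 0 := by
    have : (N' : ℝ) ≠ 0 := hN'.ne'
    exact_mod_cast this
  have hN0 : (N : ℂ) ≠ 0 := by exact_mod_cast hN
  have h4 : (N' : ℂ) ^ 4 = 1 := by
    have hgN' : ((g : ℝ) * (N' : ℝ) : ℝ) = N := by exact_mod_cast hgN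
    rw [hgN'] at h3
    simp only [one_mul, Complex.ofReal_natCast] at h3
    have h5 : (N : ℂ) ^ ((4 : ℤ) - 1) = (N : ℂ) ^ 3 := by norm_num
    rw [h5, zpow_neg] at h3
    field_simp at h3
    exact_mod_cast h3.symm
  have h5 : N' = 1 := by
    have : (N' : ℕ) ^ 4 = 1 := by exact_mod_cast h4
    rcases pow_eq_one_iff.mp this with h | h
    · exact h
    · norm_num at h
  apply hγ
  rw [Gamma0_mem, ZMod.intCast_zmod_eq_zero_iff_dvd]
  have : (g : ℤ) ∣ γ 1 0 := by rw [hgdef]; exact Int.gcd_dvd_right _ _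
  have hgN2 : g = N := by rw [← hgN, h5, mul_one]
  rwa [hgN2] at this


lemma matrix_identity' (N : ℕ) (hN : N ≠ 0) (γ δ : SL(2, ℤ))
    (h00 : N * γ 0 0 = δ 0 0 * N)
    (h01 : N * γ 0 1 = δ 0 1)
    (h10 : γ 1 0 = δ 1 0 * N)
    (h11 : γ 1 1 = δ 1 1) :
    heckeDiagMatrix N * (mapGL ℝ γ) = (mapGL ℝ δ) * heckeDiagMatrix N := by
  apply Units.ext
  ext i j
  fin_cases i <;> fin_cases j
  · simp [Matrix.mul_apply, Fin.sum_univ_two, val_heckeDiagMatrix hN]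
    exact_mod_cast h00
  · simp [Matrix.mul_apply, Fin.sum_univ_two, val_heckeDiagMatrix hN]
    exact_mod_cast h01
  · simp [Matrix.mul_apply, Fin.sum_univ_two, val_heckeDiagMatrix hN]
    exact_mod_cast h10
  · simp [Matrix.mul_apply, Fin.sum_univ_two, val_heckeDiagMatrix hN]
    exact_mod_cast h11

/-- `diag(N,1) γ diag(N,1)⁻¹ ∈ SL(2,ℤ)` for `γ ∈ Γ₀(N)`. -/
lemma exists_conj_of_mem_Gamma0 (N : ℕ) (hN : N ≠ 0) (γ : SL(2, ℤ)) (hγ : γ ∈ Gamma0 N) :
    ∃ δ : SL(2, ℤ), heckeDiagMatrix N * (mapGL ℝ γ) = (mapGL ℝ δ) * heckeDiagMatrix N := by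
  rw [Gamma0_mem, ZMod.intCast_zmod_eq_zero_iff_dvd] at hγ
  obtain ⟨c', hc'⟩ := hγ
  have hdet : γ 0 0 * γ 1 1 - γ 0 1 * γ 1 0 = 1 := by
    have := γ.det_coe
    rw [Matrix.det_fin_two] at this
    exact this
  have hδdet : (!![γ 0 0, N * γ 0 1; c', γ 1 1] : Matrix (Fin 2) (Fin 2) ℤ).det = 1 := by
    rw [Matrix.det_fin_two_of]
    rw [hc'] at hdet
    linear_combination hdet
  refine ⟨⟨!![γ 0 0, N * γ 0 1; c', γ 1 1], hδdet⟩, ?_⟩
  refine matrix_identity' N hN _ _ ?_ ?_ ?_ ?_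
  · simp only [Matrix.of_apply, Matrix.cons_val', Matrix.cons_val_zero,
      Matrix.cons_val_fin_one]
    ring
  · simp
  · simp only [Matrix.of_apply, Matrix.cons_val', Matrix.cons_val_zero,
      Matrix.cons_val_one, Matrix.cons_val_fin_one]
    rw [hc']; ring
  · simp

lemma tFun_slash_of_mem_Gamma0 (N : ℕ) (hN : N ≠ 0) (γ : SL(2, ℤ)) (hγ : γ ∈ Gamma0 N) :
    tFun N ∣[(4 : ℤ)] (mapGL ℝ γ) = tFun N := by
  obtain ⟨δ, hδ⟩ := exists_conj_of_mem_Gamma0 N hN γ hγ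
  rw [tFun, ← SlashAction.slash_mul, hδ, SlashAction.slash_mul, E₄_slash_SL]

/-- `heckeDiagMatrix N` comes from `GL(2,ℚ)`. -/
lemma exists_heckeDiagMatrix_eq_map_rat (p : ℕ) :
    ∃ g : GL (Fin 2) ℚ, heckeDiagMatrix p = Matrix.GeneralLinearGroup.map (Rat.castHom ℝ) g := by
  rcases eq_or_ne p 0 with rfl | hp
  · exact ⟨1, by rw [heckeDiagMatrix_zero, map_one]⟩
  · refine ⟨Matrix.GeneralLinearGroup.mkOfDetNeZero !![(p : ℚ), 0; 0, 1]
      (by rw [Matrix.det_fin_two_of]; simpa using hp), ?_⟩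
    ext i j
    fin_cases i <;> fin_cases j <;>
      simp [heckeDiagMatrix, hp, upperTriangularGL, Matrix.GeneralLinearGroup.mkOfDetNeZero]

lemma isCusp_ratCast_smul' {Γ : Subgroup (GL (Fin 2) ℝ)} [Γ.IsArithmetic] {c : OnePoint ℝ}
    (hc : IsCusp c Γ) (g : GL (Fin 2) ℚ) :
    IsCusp (Matrix.GeneralLinearGroup.map (Rat.castHom ℝ) g • c) Γ := by
  rw [Subgroup.IsArithmetic.isCusp_iff_isCusp_SL2Z, isCusp_SL2Z_iff] at hc ⊢
  obtain ⟨c, rfl⟩ := hc
  exact ⟨g • c, by rw [← Rat.coe_castHom, OnePoint.map_smul]⟩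

lemma isBoundedAt_slash_ratCast' {F : Type*} [FunLike F ℍ ℂ] {Γ : Subgroup (GL (Fin 2) ℝ)}
    [Γ.IsArithmetic] {k : ℤ} [ModularFormClass F Γ k] (f : F) (g : GL (Fin 2) ℚ)
    {c : OnePoint ℝ} (hc : IsCusp c Γ) :
    c.IsBoundedAt (⇑f ∣[k] (Matrix.GeneralLinearGroup.map (Rat.castHom ℝ) g)) k :=
  OnePoint.IsBoundedAt.smul_iff.mp (ModularFormClass.bdd_at_cusps f (isCusp_ratCast_smul' hc g))

/-- The primitive element `t = E₄ ∣[4] diag(N,1)` as a modular form of level `Γ₀(N)`. -/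
def tForm (N : ℕ) [NeZero N] : ModularForm (Gamma0 N : Subgroup (GL (Fin 2) ℝ)) 4 where
  toFun := tFun N
  slash_action_eq' γ hγ := by
    obtain ⟨γ', hγ', rfl⟩ := hγ
    exact tFun_slash_of_mem_Gamma0 N (NeZero.ne N) γ' hγ'
  holo' := (translate E₄ (heckeDiagMatrix N)).holo'
  bdd_at_cusps' {c} hc := by
    rw [Subgroup.IsArithmetic.isCusp_iff_isCusp_SL2Z] at hc
    obtain ⟨g, hg⟩ := exists_heckeDiagMatrix_eq_map_rat N
    rw [tFun, hg]
    exact isBoundedAt_slash_ratCast' E₄ g hc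

@[simp] lemma coe_tForm (N : ℕ) [NeZero N] : (tForm N : ℍ → ℂ) = tFun N := rfl


/-- Distinctness of the conjugates of the primitive element, in the `quotientFunc` form used
by Mathlib's norm/trace construction. -/
theorem quotientFunc_tForm_ne (N : ℕ) [NeZero N]
    (q : 𝒮ℒ ⧸ ((Gamma0 N : Subgroup (GL (Fin 2) ℝ)).subgroupOf 𝒮ℒ))
    (hq : q ≠ ((1 : 𝒮ℒ) : 𝒮ℒ ⧸ ((Gamma0 N : Subgroup (GL (Fin 2) ℝ)).subgroupOf 𝒮ℒ))) :
    SlashInvariantForm.quotientFunc (tForm N) q ≠ ⇑(tForm N) := by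
  induction q using QuotientGroup.induction_on with
  | H h =>
    obtain ⟨h, γ, rfl⟩ := h
    have hγ : γ ∉ Gamma0 N := by
      intro hγ
      apply hq
      rw [QuotientGroup.eq, Subgroup.mem_subgroupOf]
      exact ⟨γ⁻¹, inv_mem hγ, by simp⟩
    have hγ' : γ⁻¹ ∉ Gamma0 N := fun h' => hγ (by simpa using inv_mem h')
    have := tFun_slash_ne N (NeZero.ne N) γ⁻¹ hγ'
    rw [map_inv] at this
    exact this


open ArithmeticFunction in
/-- The `q`-expansion of `E₄` as an integral power series. -/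
def E4Int : PowerSeries ℤ :=
  PowerSeries.mk fun m => if m = 0 then 1 else 240 * (ArithmeticFunction.sigma 3 m : ℤ)

lemma qExpansion_E₄_eq : qExpansion 1 E₄ = E4Int.map (Int.castRingHom ℂ) := by
  ext m
  rw [EisensteinSeries.E_qExpansion_coeff (by norm_num) ⟨2, rfl⟩, PowerSeries.coeff_map, E4Int,
    PowerSeries.coeff_mk]
  have hb : bernoulli 4 = -1 / 30 := by
    rw [bernoulli_eq_bernoulli'_of_ne_one (by norm_num), bernoulli'_four]
  split_ifs with h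
  · simp
  · rw [hb]
    push_cast
    norm_num

/-- The `q`-parameter at `diag(N,1) • τ = N τ`. -/
lemma qParam_heckeDiagMatrix_smul (N : ℕ) (hN : N ≠ 0) (τ : ℍ) :
    Function.Periodic.qParam 1 ((heckeDiagMatrix N • τ : ℍ) : ℂ) =
      Function.Periodic.qParam 1 (τ : ℂ) ^ N := by
  rw [coe_heckeDiagMatrix_smul hN, Function.Periodic.qParam, Function.Periodic.qParam,
    ← Complex.exp_nat_mul]
  congr 1
  push_cast
  ring

/-- The integral `q`-expansion of the primitive element. -/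
def tInt (N : ℕ) : PowerSeries ℤ :=
  PowerSeries.mk fun n => if N ∣ n then (N : ℤ) ^ 3 * E4Int.coeff (n / N) else 0

lemma hasSum_tFun (N : ℕ) (hN : N ≠ 0) (τ : ℍ) :
    HasSum (fun n ↦ (((tInt N).coeff n : ℤ) : ℂ) • Function.Periodic.qParam 1 (τ : ℂ) ^ n)
      (tFun N τ) := by
  have h1 := ModularForm.hasSum_qExpansion (h := 1) E₄ one_pos
    (hΓ := one_mem_strictPeriods_SL) (heckeDiagMatrix N • τ)
  rw [qParam_heckeDiagMatrix_smul N hN τ] at h1
  have h2 := h1.mul_left ((N : ℂ) ^ ((4 : ℤ) - 1))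
  rw [← slash_heckeDiagMatrix_apply 4 hN] at h2
  have hinj : Function.Injective (fun m : ℕ => N * m) :=
    fun a b hab => Nat.eq_of_mul_eq_mul_left (Nat.pos_of_ne_zero hN) hab
  rw [tFun]
  refine (hinj.hasSum_iff ?_).mp ?_
  · intro n hn
    have : ¬ N ∣ n := fun ⟨m, hm⟩ => hn ⟨m, hm.symm⟩
    simp [tInt, this]
  · have h3 : ((fun n ↦ (((tInt N).coeff n : ℤ) : ℂ) • Function.Periodic.qParam 1 (τ : ℂ) ^ n) ∘
        fun m : ℕ => N * m) = fun i => (N : ℂ) ^ ((4 : ℤ) - 1) *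
          ((PowerSeries.coeff i) (qExpansion 1 ⇑E₄) * (Function.Periodic.qParam 1 ↑τ ^ N) ^ i) := by
      funext m
      simp only [Function.comp_apply, tInt, PowerSeries.coeff_mk, dvd_mul_right, if_true,
        Nat.mul_div_cancel_left m (Nat.pos_of_ne_zero hN), smul_eq_mul]
      rw [qExpansion_E₄_eq, PowerSeries.coeff_map]
      rw [show ((4 : ℤ) - 1) = ((3 : ℕ) : ℤ) by norm_num, zpow_natCast, eq_intCast]
      push_cast
      ring
    rw [h3]
    exact h2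

theorem qExpansion_tForm (N : ℕ) [NeZero N] :
    qExpansion 1 (tForm N) = (tInt N).map (Int.castRingHom ℂ) := by
  ext n
  rw [PowerSeries.coeff_map]
  exact (ModularFormClass.qExpansion_coeff_unique (f := tForm N) one_pos
    (CongruenceSubgroup.one_mem_strictPeriods_Gamma0 N)
    (c := fun n => (((tInt N).coeff n : ℤ) : ℂ)) (hasSum_tFun N (NeZero.ne N)) n).symm

end

end Fermat.Agent.S23.H743
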